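-- Top wiring for S01: Fermat's Last Theorem follows from the nonexistence of Frey packages,
-- Mathlib's exponents three and four, and S02 (a counterexample yields a Frey package).
import Mathlib.NumberTheory.FLT.Basic
import Mathlib.NumberTheory.FLT.Four
import Mathlib.NumberTheory.FLT.Three
import Fermat.Agent.S02

set_option autoImplicit false

namespace Fermat.Agent.S01

/-- An odd prime different from three is at least five. -/
theorem five_le_of_odd_prime_ne_three {p : ℕ} (pp : p.Prime) (hodd : Odd p) (h3 : p ≠ 3) :
    5 ≤ p := by
  have h2 : 2 ≤ p := pp.two_le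
  obtain ⟨k, hk⟩ := hodd
  omega

/-- Fermat for a prime exponent at least five, over the integers, from the nonexistence of
Frey packages. -/
theorem fermatLastTheoremWith_int_of_noFreyPackage (hNo : FreyPackage → False) {p : ℕ}
    (pp : p.Prime) (hp5 : 5 ≤ p) : FermatLastTheoremWith ℤ p := by
  intro a b c ha hb hc H
  obtain ⟨P⟩ := Fermat.Agent.S02.result a b c ha hb hc p pp hp5 H
  exact hNo P

/-- Fermat for a prime exponent at least five, over the naturals. -/
theorem fermatLastTheoremFor_of_noFreyPackage (hNo : FreyPackage → False) {p : ℕ}
    (pp : p.Prime) (hp5 : 5 ≤ p) : FermatLastTheoremFor p :=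
  fermatLastTheoremFor_iff_int.2 (fermatLastTheoremWith_int_of_noFreyPackage hNo pp hp5)

/-- The full Fermat statement in Mathlib's packaged form, from the nonexistence of Frey packages. -/
theorem fermatLastTheorem_of_noFreyPackage (hNo : FreyPackage → False) : FermatLastTheorem := by
  refine FermatLastTheorem.of_odd_primes ?_
  intro p pp hodd
  by_cases h3 : p = 3
  · subst h3
    exact fermatLastTheoremThree
  · exact fermatLastTheoremFor_of_noFreyPackage hNo pp
      (five_le_of_odd_prime_ne_three pp hodd h3)

/-- The elementary form (the exact shape of the root statement), from the nonexistence of Frey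
packages. -/
theorem elementary_of_noFreyPackage (hNo : FreyPackage → False) (n : ℕ) (hn : 3 ≤ n)
    (a b c : ℕ) (ha : 0 < a) (hb : 0 < b) (hc : 0 < c) : a ^ n + b ^ n ≠ c ^ n :=
  fermatLastTheorem_of_noFreyPackage hNo n hn a b c ha.ne' hb.ne' hc.ne'

end Fermat.Agent.S01
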